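/-
Lib/RedE0 (helper83): reduction on the identity component, WITHOUT any good-reduction hypothesis.

Setting: `F` a field, `A : ValuationSubring F`, `W : WeierstrassCurve A` (general `a₁ … a₆`),
`EF A W` the curve over `F`, `Ek A W` the (possibly singular) curve over the residue field.
Mathlib's `(Ek A W).Point` is the group of NONSINGULAR points of `Ek A W`.

* `InE1 A W P`     : `P = 0` or `x(P) ∉ A`  (kernel of reduction);
* `IntRedTo A W P R` : `P = (a, b)` is integral and `R = (ā, b̄)` is a nonsingular point;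
* `RedTo A W P R`  : `P ∈ E¹, R = 0`  or  `IntRedTo A W P R`;
* `RedTo.add`, `RedTo.neg`, `redTo_zero`, `RedTo.unique`: reduction is a partial homomorphism;
* `E0 A W : AddSubgroup (EF A W).Point`, `E1 A W`, `redE0 A W : E0 A W →+ (Ek A W).Point`,
  `redE0_eq_zero_iff`.

The proofs follow helper4's `Lib/EllFinite/H4_Red.lean` (good reduction), replacing the use of
`Δ ≠ 0` in the residue field by the nonsingularity of the reductions of the points at hand.
-/
import Fermat.Agent.Lib.EllFinite.H4_Red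

set_option autoImplicit false
set_option linter.unusedSectionVars false

namespace Fermat.Agent.Lib.RedE0

open WeierstrassCurve WeierstrassCurve.Affine IsLocalRing
open Fermat.Agent.Lib.EllFinite.H4

variable {F : Type*} [Field F] {A : ValuationSubring F} {W : WeierstrassCurve A}

section slope

variable [DecidableEq F]

/-- Case (b) of the reduction of the group law, for a point with nonsingular reduction:
if the reductions of two integral points are opposite (and the points themselves are not), the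
slope of the line through them is not integral. -/
theorem one_lt_val_slope_of_nonsingular {a₁ b₁ a₂ b₂ : A}
    (h₁ : W.toAffine.Equation a₁ b₁) (h₂ : W.toAffine.Equation a₂ b₂)
    (hns : (Ek A W).Nonsingular (residue A a₁) (residue A b₁))
    (hx : residue A a₁ = residue A a₂)
    (hy : residue A b₁ = (Ek A W).negY (residue A a₂) (residue A b₂))
    (hxy : ¬((a₁ : F) = (a₂ : F) ∧ (b₁ : F) = (EF A W).negY (a₂ : F) (b₂ : F))) :
    1 < A.valuation ((EF A W).slope (a₁ : F) (a₂ : F) (b₁ : F) (b₂ : F)) := by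
  set D : A := b₁ + b₂ + W.a₁ * a₁ + W.a₃ with hD
  set N : A := a₁ ^ 2 + a₁ * a₂ + a₂ ^ 2 + W.a₂ * (a₁ + a₂) + W.a₄ - W.a₁ * b₂ with hN
  have hid : (b₁ - b₂) * D = (a₁ - a₂) * N := slope_identity h₁ h₂
  have hidF : ((b₁ : F) - b₂) * (D : F) = ((a₁ : F) - a₂) * (N : F) := by
    exact_mod_cast congrArg (fun t : A => (t : F)) hid
  have hresD : residue A D = 0 := by
    have : residue A D = residue A b₁ - (Ek A W).negY (residue A a₂) (residue A b₂) := by
      simp only [hD, negY, map_add, map_mul, map_a₁, map_a₃, hx]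
      ring
    rw [this, hy, sub_self]
  have hvD : A.valuation (D : F) < 1 := (res_eq_zero_iff D).1 hresD
  by_cases hxF : (a₁ : F) = (a₂ : F)
  · have ha : a₁ = a₂ := Subtype.ext hxF
    subst ha
    have hyF : (b₁ : F) ≠ (EF A W).negY (a₁ : F) (b₂ : F) := fun h => hxy ⟨rfl, h⟩
    have hb : b₁ = b₂ := by
      rcases Y_eq_of_X_eq ((equation_coe_iff a₁ b₁).2 h₁) ((equation_coe_iff a₁ b₂).2 h₂) rfl
        with h | h
      · exact Subtype.ext h
      · exact absurd h hyF
    subst hb
    rw [slope_of_Y_ne rfl hyF]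
    have hden : (b₁ : F) - (EF A W).negY (a₁ : F) (b₁ : F) = (D : F) := by
      simp only [hD, negY, map_a₁, map_a₃]
      push_cast
      simp only [ValuationSubring.algebraMap_apply]
      ring
    have hnum : 3 * (a₁ : F) ^ 2 + 2 * (EF A W).a₂ * (a₁ : F) + (EF A W).a₄ -
        (EF A W).a₁ * (b₁ : F) = (N : F) := by
      simp only [hN, map_a₁, map_a₂, map_a₄]
      push_cast
      simp only [ValuationSubring.algebraMap_apply]
      ring
    rw [hden, hnum]
    have hD0 : (D : F) ≠ 0 := by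
      rw [← hden]; exact sub_ne_zero.2 hyF
    have hresN : residue A N ≠ 0 := by
      have h2 := ((nonsingular_iff _ _).1 hns).2
      rcases h2 with h2 | h2
      · intro h0
        apply h2
        have : residue A N = 3 * residue A a₁ ^ 2 + 2 * (Ek A W).a₂ * residue A a₁ +
            (Ek A W).a₄ - (Ek A W).a₁ * residue A b₁ := by
          simp only [hN, map_add, map_sub, map_mul, map_pow, map_a₁, map_a₂, map_a₄]
          ring
        rw [this] at h0
        linear_combination -h0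
      · exact absurd (by simpa only [negY] using hy) h2
    have hvN : A.valuation (N : F) = 1 := (res_ne_zero_iff N).1 hresN
    rw [map_div₀, hvN, one_div]
    exact (one_lt_inv₀ (zero_lt_iff.2 ((Valuation.ne_zero_iff _).2 hD0))).2 hvD
  · rw [slope_of_X_ne hxF, map_div₀]
    have hd0 : (a₁ : F) - a₂ ≠ 0 := sub_ne_zero.2 hxF
    have hvd : A.valuation ((a₁ : F) - a₂) < 1 := (res_eq_iff a₁ a₂).1 hx
    have hvd0 : 0 < A.valuation ((a₁ : F) - a₂) := zero_lt_iff.2 ((Valuation.ne_zero_iff _).2 hd0)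
    by_cases hb : residue A b₁ = residue A b₂
    · -- the reduction is a 2-torsion point: use nonsingularity
      have hresN : residue A N ≠ 0 := by
        have h2 := ((nonsingular_iff _ _).1 hns).2
        rcases h2 with h2 | h2
        · intro h0
          apply h2
          have : residue A N = 3 * residue A a₁ ^ 2 + 2 * (Ek A W).a₂ * residue A a₁ +
              (Ek A W).a₄ - (Ek A W).a₁ * residue A b₁ := by
            simp only [hN, map_add, map_sub, map_mul, map_pow, map_a₁, map_a₂, map_a₄, ← hx, ← hb]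
            ring
          rw [this] at h0
          linear_combination -h0
        · have h3 := hy
          simp only [negY] at h3
          rw [← hx, ← hb] at h3
          exact absurd h3 h2
      have hvN : A.valuation (N : F) = 1 := (res_ne_zero_iff N).1 hresN
      have hN0 : (N : F) ≠ 0 := by
        intro h0; rw [h0, map_zero] at hvN; exact zero_ne_one hvN
      have hD0 : (D : F) ≠ 0 := by
        intro h0
        rw [h0, mul_zero] at hidF
        exact (mul_ne_zero hd0 hN0) hidF.symm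
      have hvD0 : 0 < A.valuation (D : F) := zero_lt_iff.2 ((Valuation.ne_zero_iff _).2 hD0)
      have hv := congrArg A.valuation hidF
      rw [map_mul, map_mul, hvN, mul_one] at hv
      have hb0 : A.valuation ((b₁ : F) - b₂) ≠ 0 := by
        intro h0
        rw [h0, zero_mul] at hv
        exact hvd0.ne hv
      rw [← hv, div_mul_cancel_left₀ hb0]
      exact (one_lt_inv₀ hvD0).2 hvD
    · have hvb : A.valuation ((b₁ : F) - b₂) = 1 := by
        have := (res_ne_zero_iff (b₁ - b₂)).1 (by rw [map_sub]; exact sub_ne_zero.2 hb)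
        exact_mod_cast this
      rw [hvb, one_div]
      exact (one_lt_inv₀ hvd0).2 hvd

end slope

variable [DecidableEq F] [DecidableEq (ResidueField A)]

/-! ## The relation "`P` reduces to `R`" -/

variable (A W) in
/-- The kernel of reduction: the point at infinity and the points with non-integral `x`. -/
def InE1 (P : (EF A W).Point) : Prop :=
  P = 0 ∨ ∃ (x y : F) (h : (EF A W).Nonsingular x y), P = .some x y h ∧ 1 < A.valuation x

variable (A W) in
/-- `P = (a, b)` is an integral point and `R = (ā, b̄)` is a nonsingular point of the special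
fibre. -/
def IntRedTo (P : (EF A W).Point) (R : (Ek A W).Point) : Prop :=
  ∃ (a b : A) (h : (EF A W).Nonsingular (a : F) (b : F))
    (h' : (Ek A W).Nonsingular (residue A a) (residue A b)),
    P = .some _ _ h ∧ R = .some _ _ h'

variable (A W) in
/-- `P` lies in `E⁰` and reduces to the nonsingular point `R` of the special fibre. -/
def RedTo (P : (EF A W).Point) (R : (Ek A W).Point) : Prop :=
  (InE1 A W P ∧ R = 0) ∨ IntRedTo A W P R

lemma inE1_zero : InE1 A W 0 := Or.inl rfl

lemma redTo_zero : RedTo A W 0 0 := Or.inl ⟨inE1_zero, rfl⟩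

lemma inE1_some_iff {x y : F} (h : (EF A W).Nonsingular x y) :
    InE1 A W (.some x y h) ↔ 1 < A.valuation x := by
  constructor
  · rintro (h0 | ⟨x', y', h', e, hx⟩)
    · exact absurd h0 (Point.some_ne_zero _)
    · simp only [Point.some.injEq] at e
      rw [e.1]; exact hx
  · intro hx
    exact Or.inr ⟨x, y, h, rfl, hx⟩

lemma IntRedTo.ne_zero {P : (EF A W).Point} {R : (Ek A W).Point} (h : IntRedTo A W P R) :
    R ≠ 0 := by
  obtain ⟨a, b, h, h', -, rfl⟩ := h
  exact Point.some_ne_zero _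

lemma IntRedTo.not_inE1 {P : (EF A W).Point} {R : (Ek A W).Point} (h : IntRedTo A W P R) :
    ¬ InE1 A W P := by
  obtain ⟨a, b, h, h', rfl, -⟩ := h
  rw [inE1_some_iff]
  exact not_lt.2 (A.valuation_le_one a)

lemma intRedTo_some {a b : A} (h : (EF A W).Nonsingular (a : F) (b : F))
    (h' : (Ek A W).Nonsingular (residue A a) (residue A b)) :
    IntRedTo A W (.some _ _ h) (.some _ _ h') :=
  ⟨a, b, h, h', rfl, rfl⟩

/-- The reduction is unique. -/
theorem RedTo.unique {P : (EF A W).Point} {R R' : (Ek A W).Point} (h : RedTo A W P R)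
    (h' : RedTo A W P R') : R = R' := by
  rcases h with ⟨h1, rfl⟩ | h
  · rcases h' with ⟨-, rfl⟩ | h'
    · rfl
    · exact absurd h1 h'.not_inE1
  · rcases h' with ⟨h1', -⟩ | h'
    · exact absurd h1' h.not_inE1
    · obtain ⟨a, b, h, hk, rfl, rfl⟩ := h
      obtain ⟨a', b', h', hk', e, rfl⟩ := h'
      simp only [Point.some.injEq] at e
      have ea : a = a' := Subtype.ext e.1
      have eb : b = b' := Subtype.ext e.2
      subst ea eb
      rfl

/-- `RedTo P R` with `R = 0` iff `P ∈ E¹`. -/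
theorem RedTo.eq_zero_iff {P : (EF A W).Point} {R : (Ek A W).Point} (h : RedTo A W P R) :
    R = 0 ↔ InE1 A W P := by
  rcases h with ⟨h1, rfl⟩ | h
  · exact ⟨fun _ => h1, fun _ => rfl⟩
  · exact ⟨fun h0 => absurd h0 h.ne_zero, fun h1 => absurd h1 h.not_inE1⟩

/-! ## Negation -/

lemma InE1.neg {P : (EF A W).Point} (h : InE1 A W P) : InE1 A W (-P) := by
  rcases h with rfl | ⟨x, y, h, rfl, hx⟩
  · exact Or.inl neg_zero
  · rw [Point.neg_some, inE1_some_iff]
    exact hx

lemma IntRedTo.neg {P : (EF A W).Point} {R : (Ek A W).Point} (h : IntRedTo A W P R) :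
    IntRedTo A W (-P) (-R) := by
  obtain ⟨a, b, h, h', rfl, rfl⟩ := h
  have hn : (EF A W).Nonsingular (a : F) ((W.toAffine.negY a b : A) : F) := by
    rw [← negY_coe]; exact (nonsingular_neg ..).2 h
  have hn' : (Ek A W).Nonsingular (residue A a) (residue A (W.toAffine.negY a b)) := by
    rw [← negY_res]; exact (nonsingular_neg ..).2 h'
  refine ⟨a, W.toAffine.negY a b, hn, hn', ?_, ?_⟩
  · rw [Point.neg_some]
    exact some_eq_some _ _ rfl (negY_coe a b)
  · rw [Point.neg_some]
    exact some_eq_some _ _ rfl (negY_res a b)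

theorem RedTo.neg {P : (EF A W).Point} {R : (Ek A W).Point} (h : RedTo A W P R) :
    RedTo A W (-P) (-R) := by
  rcases h with ⟨h1, rfl⟩ | h
  · exact Or.inl ⟨h1.neg, neg_zero⟩
  · exact Or.inr h.neg

/-! ## Addition -/

/-- Both points integral with nonsingular reductions, reductions not opposite. -/
theorem IntRedTo.add_of_ne {P₁ P₂ : (EF A W).Point} {R₁ R₂ : (Ek A W).Point}
    (h₁ : IntRedTo A W P₁ R₁) (h₂ : IntRedTo A W P₂ R₂) (hne : R₁ + R₂ ≠ 0) :
    IntRedTo A W (P₁ + P₂) (R₁ + R₂) := by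
  obtain ⟨a₁, b₁, h₁, k₁, rfl, rfl⟩ := h₁
  obtain ⟨a₂, b₂, h₂, k₂, rfl, rfl⟩ := h₂
  have hne' : ¬(residue A a₁ = residue A a₂ ∧
      residue A b₁ = (Ek A W).negY (residue A a₂) (residue A b₂)) := by
    rintro ⟨hx, hy⟩
    exact hne (Point.add_of_Y_eq hx hy)
  have e₁ := (equation_coe_iff a₁ b₁).1 h₁.1
  have e₂ := (equation_coe_iff a₂ b₂).1 h₂.1
  obtain ⟨l, hl, hlk⟩ := exists_slope e₁ e₂ hne'
  have hxyF : ¬((a₁ : F) = (a₂ : F) ∧ (b₁ : F) = (EF A W).negY (a₂ : F) (b₂ : F)) := by
    rintro ⟨hx, hy⟩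
    apply hne'
    refine ⟨congrArg (residue A) (Subtype.ext hx), ?_⟩
    rw [negY_coe] at hy
    rw [negY_res]
    exact congrArg (residue A) (Subtype.ext hy)
  have hF : (EF A W).Nonsingular ((W.toAffine.addX a₁ a₂ l : A) : F)
      ((W.toAffine.addY a₁ a₂ b₁ l : A) : F) := by
    rw [← addX_coe, ← addY_coe, ← hl]
    exact nonsingular_add h₁ h₂ hxyF
  have hk : (Ek A W).Nonsingular (residue A (W.toAffine.addX a₁ a₂ l))
      (residue A (W.toAffine.addY a₁ a₂ b₁ l)) := by
    rw [← addX_res, ← addY_res, ← hlk]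
    exact nonsingular_add k₁ k₂ hne'
  refine ⟨W.toAffine.addX a₁ a₂ l, W.toAffine.addY a₁ a₂ b₁ l, hF, hk, ?_, ?_⟩
  · rw [Point.add_some hxyF]
    exact some_eq_some _ _ (by rw [hl, addX_coe]) (by rw [hl, addY_coe])
  · rw [Point.add_some hne']
    exact some_eq_some _ _ (by rw [hlk, addX_res]) (by rw [hlk, addY_res])

/-- Both points integral with nonsingular reductions, reductions opposite. -/
theorem IntRedTo.add_of_eq {P₁ P₂ : (EF A W).Point} {R₁ R₂ : (Ek A W).Point}
    (h₁ : IntRedTo A W P₁ R₁) (h₂ : IntRedTo A W P₂ R₂) (h0 : R₁ + R₂ = 0) :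
    InE1 A W (P₁ + P₂) := by
  obtain ⟨a₁, b₁, h₁, k₁, rfl, rfl⟩ := h₁
  obtain ⟨a₂, b₂, h₂, k₂, rfl, rfl⟩ := h₂
  have hxy : residue A a₁ = residue A a₂ ∧
      residue A b₁ = (Ek A W).negY (residue A a₂) (residue A b₂) := by
    by_contra hne'
    rw [Point.add_some hne'] at h0
    exact Point.some_ne_zero _ h0
  have e₁ := (equation_coe_iff a₁ b₁).1 h₁.1
  have e₂ := (equation_coe_iff a₂ b₂).1 h₂.1
  by_cases hxyF : (a₁ : F) = (a₂ : F) ∧ (b₁ : F) = (EF A W).negY (a₂ : F) (b₂ : F)
  · rw [Point.add_of_Y_eq hxyF.1 hxyF.2]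
    exact inE1_zero
  · rw [Point.add_some hxyF, inE1_some_iff]
    exact one_lt_val_addX (intCoeff_EF A W) (A.valuation_le_one a₁) (A.valuation_le_one a₂)
      (one_lt_val_slope_of_nonsingular e₁ e₂ k₁ hxy.1 hxy.2 hxyF)

/-- The kernel of reduction is closed under addition. -/
theorem InE1.add {P₁ P₂ : (EF A W).Point} (h₁ : InE1 A W P₁) (h₂ : InE1 A W P₂) :
    InE1 A W (P₁ + P₂) := by
  rcases h₁ with rfl | ⟨x₁, y₁, h₁, rfl, hx₁⟩
  · rw [zero_add]; exact h₂
  rcases h₂ with rfl | ⟨x₂, y₂, h₂, rfl, hx₂⟩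
  · rw [add_zero]; exact Or.inr ⟨x₁, y₁, h₁, rfl, hx₁⟩
  rcases hR : (Point.some _ _ h₁ + Point.some _ _ h₂ : (EF A W).Point) with _ | ⟨x, y, h⟩
  · exact inE1_zero
  · rw [inE1_some_iff]
    by_contra hx
    have hx : A.valuation x ≤ 1 := not_lt.1 hx
    have hneg : -(Point.some _ _ h₂ : (EF A W).Point) =
        .some x₂ ((EF A W).negY x₂ y₂) ((nonsingular_neg ..).2 h₂) := Point.neg_some h₂
    obtain ⟨x₃, y₃, h₃, e, hv⟩ := add_E1_int ((nonsingular_neg ..).2 h₂) hx₂ h hx
    have e2 : (Point.some _ _ h₁ : (EF A W).Point) = .some x₃ y₃ h₃ := by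
      rw [← e, ← hneg, ← hR]
      abel
    have hx13 : x₁ = x₃ := by
      simp only [Point.some.injEq] at e2
      exact e2.1
    rw [hx13] at hx₁
    exact absurd (val_le_one_of_sub_lt hv hx) (not_le.2 hx₁)

/-- Adding a point of the kernel of reduction does not change the reduction. -/
theorem InE1.add_intRedTo {P₁ P₂ : (EF A W).Point} {R : (Ek A W).Point}
    (h₁ : InE1 A W P₁) (h₂ : IntRedTo A W P₂ R) : IntRedTo A W (P₁ + P₂) R := by
  rcases h₁ with rfl | ⟨x₁, y₁, h₁, rfl, hx₁⟩
  · rw [zero_add]; exact h₂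
  obtain ⟨a₂, b₂, h₂, k₂, rfl, rfl⟩ := h₂
  obtain ⟨x₃, y₃, h₃, e, hv⟩ := add_E1_int h₁ hx₁ h₂ (A.valuation_le_one a₂)
  have hx₃ : A.valuation x₃ ≤ 1 := val_le_one_of_sub_lt hv (A.valuation_le_one a₂)
  obtain ⟨a₃, b₃, rfl, rfl⟩ := exists_coe_of_le h₃ hx₃
  have hxres : residue A a₃ = residue A a₂ := (res_eq_iff a₃ a₂).2 hv
  have hyres : residue A b₃ = residue A b₂ := by
    by_contra hb
    -- then `R + (-Q)` is integral by case (a), but it equals `P`
    have hnegQ : (EF A W).Nonsingular (a₂ : F) ((W.toAffine.negY a₂ b₂ : A) : F) := by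
      rw [← negY_coe]; exact (nonsingular_neg ..).2 h₂
    have hneg : -(Point.some _ _ h₂ : (EF A W).Point) = .some _ _ hnegQ := by
      rw [Point.neg_some]
      exact some_eq_some _ _ rfl (negY_coe a₂ b₂)
    have hne : ¬(residue A a₃ = residue A a₂ ∧
        residue A b₃ = (Ek A W).negY (residue A a₂) (residue A (W.toAffine.negY a₂ b₂))) := by
      rintro ⟨-, h⟩
      rw [← negY_res, negY_negY] at h
      exact hb h
    have e₃ := (equation_coe_iff a₃ b₃).1 h₃.1
    have e₂' := (equation_coe_iff a₂ (W.toAffine.negY a₂ b₂)).1 hnegQ.1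
    obtain ⟨l, hl, -⟩ := exists_slope e₃ e₂' hne
    have hxyF : ¬((a₃ : F) = (a₂ : F) ∧
        (b₃ : F) = (EF A W).negY (a₂ : F) ((W.toAffine.negY a₂ b₂ : A) : F)) := by
      rintro ⟨hx, hy⟩
      apply hne
      refine ⟨congrArg (residue A) (Subtype.ext hx), ?_⟩
      rw [negY_coe] at hy
      rw [negY_res]
      exact congrArg (residue A) (Subtype.ext hy)
    have hsum : (Point.some _ _ h₃ + Point.some _ _ hnegQ : (EF A W).Point) =
        Point.some _ _ h₁ := by
      rw [← hneg, ← e]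
      abel
    rw [Point.add_some hxyF] at hsum
    simp only [Point.some.injEq] at hsum
    have hx1 : x₁ = ((W.toAffine.addX a₃ a₂ l : A) : F) := by
      rw [← hsum.1, hl, addX_coe]
    rw [hx1] at hx₁
    exact absurd (A.valuation_le_one _) (not_le.2 hx₁)
  have k₃ : (Ek A W).Nonsingular (residue A a₃) (residue A b₃) := by
    rw [hxres, hyres]; exact k₂
  refine ⟨a₃, b₃, h₃, k₃, e, ?_⟩
  exact some_eq_some _ _ hxres.symm hyres.symm

/-- **Reduction is additive.** -/
theorem RedTo.add {P₁ P₂ : (EF A W).Point} {R₁ R₂ : (Ek A W).Point}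
    (h₁ : RedTo A W P₁ R₁) (h₂ : RedTo A W P₂ R₂) : RedTo A W (P₁ + P₂) (R₁ + R₂) := by
  rcases h₁ with ⟨h₁, rfl⟩ | h₁
  · rcases h₂ with ⟨h₂, rfl⟩ | h₂
    · exact Or.inl ⟨h₁.add h₂, add_zero _⟩
    · rw [zero_add]
      exact Or.inr (h₁.add_intRedTo h₂)
  · rcases h₂ with ⟨h₂, rfl⟩ | h₂
    · rw [add_zero, add_comm]
      exact Or.inr (h₂.add_intRedTo h₁)
    · by_cases h0 : R₁ + R₂ = 0
      · exact Or.inl ⟨h₁.add_of_eq h₂ h0, h0⟩
      · exact Or.inr (h₁.add_of_ne h₂ h0)

theorem RedTo.sub {P₁ P₂ : (EF A W).Point} {R₁ R₂ : (Ek A W).Point}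
    (h₁ : RedTo A W P₁ R₁) (h₂ : RedTo A W P₂ R₂) : RedTo A W (P₁ - P₂) (R₁ - R₂) := by
  rw [sub_eq_add_neg, sub_eq_add_neg]
  exact h₁.add h₂.neg

theorem RedTo.nsmul {P : (EF A W).Point} {R : (Ek A W).Point} (h : RedTo A W P R) (n : ℕ) :
    RedTo A W (n • P) (n • R) := by
  induction n with
  | zero => rw [zero_nsmul, zero_nsmul]; exact redTo_zero
  | succ n ih => rw [succ_nsmul, succ_nsmul]; exact ih.add h

theorem RedTo.zsmul {P : (EF A W).Point} {R : (Ek A W).Point} (h : RedTo A W P R) (n : ℤ) :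
    RedTo A W (n • P) (n • R) := by
  rcases Int.eq_nat_or_neg n with ⟨k, rfl | rfl⟩
  · rw [natCast_zsmul, natCast_zsmul]; exact h.nsmul k
  · rw [neg_smul, neg_smul, natCast_zsmul, natCast_zsmul]; exact (h.nsmul k).neg

/-! ## The subgroups `E¹ ⊆ E⁰` and the reduction homomorphism -/

variable (A W) in
/-- The identity component `E⁰`: the points with non-integral `x` or nonsingular reduction. -/
def E0 : AddSubgroup (EF A W).Point where
  carrier := {P | ∃ R, RedTo A W P R}
  zero_mem' := ⟨0, redTo_zero⟩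
  add_mem' := by
    rintro P₁ P₂ ⟨R₁, h₁⟩ ⟨R₂, h₂⟩
    exact ⟨R₁ + R₂, h₁.add h₂⟩
  neg_mem' := by
    rintro P ⟨R, h⟩
    exact ⟨-R, h.neg⟩

variable (A W) in
/-- The kernel of reduction `E¹`. -/
def E1 : AddSubgroup (EF A W).Point where
  carrier := {P | InE1 A W P}
  zero_mem' := inE1_zero
  add_mem' := fun h₁ h₂ => h₁.add h₂
  neg_mem' := fun h => h.neg

lemma mem_E0_iff {P : (EF A W).Point} : P ∈ E0 A W ↔ ∃ R, RedTo A W P R := Iff.rfl

lemma mem_E1_iff {P : (EF A W).Point} : P ∈ E1 A W ↔ InE1 A W P := Iff.rfl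

lemma E1_le_E0 : E1 A W ≤ E0 A W := fun _ h => ⟨0, Or.inl ⟨h, rfl⟩⟩

variable (A W) in
/-- **The reduction homomorphism** `E⁰ → Ẽ_ns(k)`. -/
noncomputable def redE0 : E0 A W →+ (Ek A W).Point where
  toFun P := P.2.choose
  map_zero' := (E0 A W).zero_mem.choose_spec.unique redTo_zero
  map_add' P Q := (P + Q).2.choose_spec.unique (P.2.choose_spec.add Q.2.choose_spec)

lemma redTo_redE0 (P : E0 A W) : RedTo A W (P : (EF A W).Point) (redE0 A W P) :=
  P.2.choose_spec

lemma redE0_eq_of_redTo {P : E0 A W} {R : (Ek A W).Point}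
    (h : RedTo A W (P : (EF A W).Point) R) : redE0 A W P = R :=
  (redTo_redE0 P).unique h

/-- The kernel of `redE0` is `E¹`. -/
theorem redE0_eq_zero_iff (P : E0 A W) :
    redE0 A W P = 0 ↔ InE1 A W (P : (EF A W).Point) :=
  (redTo_redE0 P).eq_zero_iff

end Fermat.Agent.Lib.RedE0
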