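/-
Lib/RedE0 (helper83): Weierstrass cubics with a node.

For a Weierstrass curve `V` over a field with `Δ = 0` and `c₄ ≠ 0` (all characteristics):
* the singular point `(x₀, y₀) = ((18 b₆ - b₂ b₄) / c₄, (b₂ b₅ + 3 b₇) / c₄)` is rational
  (`singX`, `singY`; `b₅ = a₁ a₄ - 2 a₂ a₃`, `b₇ = a₁ (a₃² - 12 a₆) + 8 a₃ a₄`);
* a nonsingular affine point `(x, y)` has `x ≠ x₀` and is determined by the slope
  `(y - y₀) / (x - x₀)` of the line through the node (`eq_of_nodeSlope_eq`);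
* hence a finite field `k` carries at most `#k` nonsingular affine points (`card_le_of_nodal`).
-/
import Mathlib.AlgebraicGeometry.EllipticCurve.Affine.Point
import Mathlib.SetTheory.Cardinal.Finite

set_option autoImplicit false

namespace Fermat.Agent.Lib.RedE0

open WeierstrassCurve

section Ring

variable {R : Type*} [CommRing R] (W : WeierstrassCurve R)

/-- Numerator of the `x`-coordinate of the singular point of a nodal Weierstrass cubic. -/
def singX : R := 18 * W.b₆ - W.b₂ * W.b₄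

/-- Numerator of the `y`-coordinate of the singular point of a nodal Weierstrass cubic. -/
def singY : R :=
  W.b₂ * (W.a₁ * W.a₄ - 2 * W.a₂ * W.a₃) + 3 * (W.a₁ * (W.a₃ ^ 2 - 12 * W.a₆) + 8 * W.a₃ * W.a₄)

lemma sing_Fy : 2 * singY W + W.a₁ * singX W + W.a₃ * W.c₄ = 0 := by
  simp only [singX, singY, WeierstrassCurve.b₂, WeierstrassCurve.b₄, WeierstrassCurve.b₆,
    WeierstrassCurve.c₄]
  ring

lemma sing_Fx : W.a₁ * singY W * W.c₄ - 3 * singX W ^ 2 - 2 * W.a₂ * singX W * W.c₄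
    - W.a₄ * W.c₄ ^ 2 = 36 * W.Δ := by
  simp only [singX, singY, WeierstrassCurve.b₂, WeierstrassCurve.b₄, WeierstrassCurve.b₆,
    WeierstrassCurve.b₈, WeierstrassCurve.c₄, WeierstrassCurve.Δ]
  ring

lemma sing_F : singY W ^ 2 * W.c₄ + W.a₁ * singX W * singY W * W.c₄ + W.a₃ * singY W * W.c₄ ^ 2
    - singX W ^ 3 - W.a₂ * singX W ^ 2 * W.c₄ - W.a₄ * singX W * W.c₄ ^ 2 - W.a₆ * W.c₄ ^ 3
    = -(W.c₆ * W.Δ) := by
  simp only [singX, singY, WeierstrassCurve.b₂, WeierstrassCurve.b₄, WeierstrassCurve.b₆,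
    WeierstrassCurve.b₈, WeierstrassCurve.c₄, WeierstrassCurve.c₆, WeierstrassCurve.Δ]
  ring

end Ring

section Field

variable {k : Type*} [Field k] (V : WeierstrassCurve k)

/-- The `x`-coordinate of the node. -/
noncomputable def nodeX : k := singX V / V.c₄

/-- The `y`-coordinate of the node. -/
noncomputable def nodeY : k := singY V / V.c₄

variable {V}

lemma nodeX_mul (hc₄ : V.c₄ ≠ 0) : nodeX V * V.c₄ = singX V := div_mul_cancel₀ _ hc₄

lemma nodeY_mul (hc₄ : V.c₄ ≠ 0) : nodeY V * V.c₄ = singY V := div_mul_cancel₀ _ hc₄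

lemma node_Fy (hc₄ : V.c₄ ≠ 0) : 2 * nodeY V + V.a₁ * nodeX V + V.a₃ = 0 := by
  have h : V.c₄ * (2 * nodeY V + V.a₁ * nodeX V + V.a₃) = 0 := by
    have := sing_Fy V
    rw [← nodeX_mul hc₄, ← nodeY_mul hc₄] at this
    linear_combination this
  exact (mul_eq_zero.1 h).resolve_left hc₄

lemma node_Fx (hΔ : V.Δ = 0) (hc₄ : V.c₄ ≠ 0) :
    V.a₁ * nodeY V - 3 * nodeX V ^ 2 - 2 * V.a₂ * nodeX V - V.a₄ = 0 := by
  have h : V.c₄ ^ 2 * (V.a₁ * nodeY V - 3 * nodeX V ^ 2 - 2 * V.a₂ * nodeX V - V.a₄) = 0 := by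
    have := sing_Fx V
    rw [← nodeX_mul hc₄, ← nodeY_mul hc₄, hΔ] at this
    linear_combination this
  exact (mul_eq_zero.1 h).resolve_left (pow_ne_zero 2 hc₄)

lemma node_F (hΔ : V.Δ = 0) (hc₄ : V.c₄ ≠ 0) :
    nodeY V ^ 2 + V.a₁ * nodeX V * nodeY V + V.a₃ * nodeY V
      - nodeX V ^ 3 - V.a₂ * nodeX V ^ 2 - V.a₄ * nodeX V - V.a₆ = 0 := by
  have h : V.c₄ ^ 3 * (nodeY V ^ 2 + V.a₁ * nodeX V * nodeY V + V.a₃ * nodeY V
      - nodeX V ^ 3 - V.a₂ * nodeX V ^ 2 - V.a₄ * nodeX V - V.a₆) = 0 := by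
    have := sing_F V
    rw [← nodeX_mul hc₄, ← nodeY_mul hc₄, hΔ] at this
    linear_combination this
  exact (mul_eq_zero.1 h).resolve_left (pow_ne_zero 3 hc₄)

/-- The equation of a nodal cubic in coordinates centred at the node. -/
lemma nodal_equation (hΔ : V.Δ = 0) (hc₄ : V.c₄ ≠ 0) {x y : k}
    (h : V.toAffine.Equation x y) :
    (y - nodeY V) ^ 2 + V.a₁ * (x - nodeX V) * (y - nodeY V)
      = (x - nodeX V) ^ 3 + (3 * nodeX V + V.a₂) * (x - nodeX V) ^ 2 := by
  rw [Affine.equation_iff] at h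
  linear_combination h - node_F hΔ hc₄ - (x - nodeX V) * node_Fx hΔ hc₄
    - (y - nodeY V) * node_Fy hc₄

/-- The node is not a nonsingular point. -/
lemma not_nonsingular_node (hΔ : V.Δ = 0) (hc₄ : V.c₄ ≠ 0) :
    ¬ V.toAffine.Nonsingular (nodeX V) (nodeY V) := by
  intro h
  rcases ((Affine.nonsingular_iff _ _).1 h).2 with h1 | h1
  · apply h1
    linear_combination node_Fx hΔ hc₄
  · apply h1
    linear_combination node_Fy hc₄

/-- A nonsingular affine point does not lie on the vertical line through the node. -/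
lemma X_ne_nodeX (hΔ : V.Δ = 0) (hc₄ : V.c₄ ≠ 0) {x y : k}
    (h : V.toAffine.Nonsingular x y) : x ≠ nodeX V := by
  intro hx
  have h1 := nodal_equation hΔ hc₄ h.1
  rw [hx, sub_self] at h1
  have h2 : (y - nodeY V) ^ 2 = 0 := by linear_combination h1
  have hy : y = nodeY V := sub_eq_zero.1 ((pow_eq_zero_iff two_ne_zero).1 h2)
  rw [hx, hy] at h
  exact not_nonsingular_node hΔ hc₄ h

variable (V) in
/-- The slope of the line through the node and `(x, y)`. -/
noncomputable def nodeSlope (x y : k) : k := (y - nodeY V) / (x - nodeX V)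

/-- The `x`-coordinate of a nonsingular point in terms of the slope. -/
lemma X_eq_of_nodeSlope (hΔ : V.Δ = 0) (hc₄ : V.c₄ ≠ 0) {x y : k}
    (h : V.toAffine.Nonsingular x y) :
    x = nodeSlope V x y ^ 2 + V.a₁ * nodeSlope V x y - 2 * nodeX V - V.a₂ := by
  have hu : x - nodeX V ≠ 0 := sub_ne_zero.2 (X_ne_nodeX hΔ hc₄ h)
  have hv : y - nodeY V = nodeSlope V x y * (x - nodeX V) := by
    rw [nodeSlope, div_mul_cancel₀ _ hu]
  have h1 := nodal_equation hΔ hc₄ h.1
  rw [hv] at h1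
  have h2 : (x - nodeX V) ^ 2 * (nodeSlope V x y ^ 2 + V.a₁ * nodeSlope V x y
      - (x - nodeX V) - (3 * nodeX V + V.a₂)) = 0 := by
    linear_combination h1
  have h3 := (mul_eq_zero.1 h2).resolve_left (pow_ne_zero 2 hu)
  linear_combination -h3

/-- **A nonsingular affine point of a nodal cubic is determined by its slope through the node.** -/
theorem eq_of_nodeSlope_eq (hΔ : V.Δ = 0) (hc₄ : V.c₄ ≠ 0) {x y x' y' : k}
    (h : V.toAffine.Nonsingular x y) (h' : V.toAffine.Nonsingular x' y')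
    (ht : nodeSlope V x y = nodeSlope V x' y') : x = x' ∧ y = y' := by
  have hx : x = x' := by
    rw [X_eq_of_nodeSlope hΔ hc₄ h, X_eq_of_nodeSlope hΔ hc₄ h', ht]
  refine ⟨hx, ?_⟩
  have hu : x - nodeX V ≠ 0 := sub_ne_zero.2 (X_ne_nodeX hΔ hc₄ h)
  have hu' : x' - nodeX V ≠ 0 := sub_ne_zero.2 (X_ne_nodeX hΔ hc₄ h')
  have hv : y - nodeY V = nodeSlope V x y * (x - nodeX V) := by
    rw [nodeSlope, div_mul_cancel₀ _ hu]
  have hv' : y' - nodeY V = nodeSlope V x' y' * (x' - nodeX V) := by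
    rw [nodeSlope, div_mul_cancel₀ _ hu']
  have : y - nodeY V = y' - nodeY V := by rw [hv, hv', ht, hx]
  linear_combination this

/-- **A nodal cubic over a finite field `k` has at most `#k` nonsingular affine points.** -/
theorem card_le_of_nodal [Finite k] (hΔ : V.Δ = 0) (hc₄ : V.c₄ ≠ 0) {ι : Type*} [Finite ι]
    (g : ι → k × k) (hg : Function.Injective g)
    (hns : ∀ i, V.toAffine.Nonsingular (g i).1 (g i).2) : Nat.card ι ≤ Nat.card k := by
  refine Nat.card_le_card_of_injective (fun i => nodeSlope V (g i).1 (g i).2) ?_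
  intro i j hij
  apply hg
  obtain ⟨h1, h2⟩ := eq_of_nodeSlope_eq hΔ hc₄ (hns i) (hns j) hij
  exact Prod.ext h1 h2

end Field

end Fermat.Agent.Lib.RedE0
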