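/-
Lib/RedE0 (helper83): torsion in the identity component at a prime of multiplicative reduction.

* `eq_zero_of_inE1_of_nsmul` : `E¹` has no torsion prime to the residue characteristic;
* `redTo_nsmul_int` : the multiples `k • Q`, `p ∤ k`, of a point `Q ∈ E⁰` of prime order `p`
  prime to the residue characteristic are integral with nonsingular reduction `k • R`;
* `order_le_card_add_one` : if the special fibre is a nodal cubic defined over a finite field `k₀`
  and the multiples of `Q` reduce to `k₀`-rational points, then `p ≤ #k₀ + 1`.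
-/
import Fermat.Agent.Lib.RedE0.Basic
import Fermat.Agent.Lib.RedE0.Nodal
import Fermat.Agent.Lib.EllFinite.H46_RedTors

set_option autoImplicit false
set_option linter.unusedSectionVars false

namespace Fermat.Agent.Lib.RedE0

open WeierstrassCurve WeierstrassCurve.Affine IsLocalRing
open Fermat.Agent.Lib.EllFinite.H4 Fermat.Agent.Lib.EllFinite

variable {F : Type*} [Field F] [DecidableEq F] {A : ValuationSubring F}
  [DecidableEq (ResidueField A)] {W : WeierstrassCurve A}

/-- `E¹` has no torsion prime to the residue characteristic. -/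
theorem eq_zero_of_inE1_of_nsmul {n : ℕ} (hn : (n : ResidueField A) ≠ 0)
    {P : (EF A W).Point} (h0 : n • P = 0) (h1 : InE1 A W P) : P = 0 := by
  rcases h1 with h | ⟨x, y, h, rfl, hx⟩
  · exact h
  · exfalso
    have := H46.x_mem_of_nsmul_eq_zero hn h h0
    rw [← A.valuation_le_one_iff] at this
    exact absurd hx (not_lt.mpr this)

/-- The multiples `k • Q`, `p ∤ k`, of a point `Q ∈ E⁰` of order `p` prime to the residue
characteristic are integral points with nonsingular reduction `k • R`. -/
theorem redTo_nsmul_int {p : ℕ} (hpk : (p : ResidueField A) ≠ 0)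
    {Q : (EF A W).Point} (hQ : addOrderOf Q = p) {R : (Ek A W).Point} (hR : RedTo A W Q R)
    {k : ℕ} (hk : ¬ p ∣ k) : IntRedTo A W (k • Q) (k • R) := by
  rcases hR.nsmul k with ⟨h1, -⟩ | h2
  · exfalso
    have hp0 : p • (k • Q) = 0 := by
      rw [smul_comm, ← hQ, addOrderOf_nsmul_eq_zero, smul_zero]
    have h0 := eq_zero_of_inE1_of_nsmul hpk hp0 h1
    apply hk
    rw [← hQ]
    exact addOrderOf_dvd_of_nsmul_eq_zero h0
  · exact h2

/-- **The bound `p ≤ #k₀ + 1`** for a point of order `p` (prime to the residue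
characteristic) in `E⁰`, at a place where the special fibre is a nodal cubic over the finite field
`k₀` and the multiples of the point reduce to `k₀`-rational points. -/
theorem order_le_card_add_one {k₀ : Type*} [Field k₀] [Finite k₀]
    (f : k₀ →+* ResidueField A) (W₀ : WeierstrassCurve k₀)
    (hW₀ : W₀.map f = W.map (residue A)) (hΔ : W₀.Δ = 0) (hc₄ : W₀.c₄ ≠ 0)
    {p : ℕ} (hpk : (p : ResidueField A) ≠ 0)
    {Q : (EF A W).Point} (hQ : addOrderOf Q = p) (hQ0 : Q ∈ E0 A W)
    (hrat : ∀ (k : ℕ) (a b : A) (h : (EF A W).Nonsingular (a : F) (b : F)),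
      k • Q = .some _ _ h → residue A a ∈ f.range ∧ residue A b ∈ f.range) :
    p ≤ Nat.card k₀ + 1 := by
  obtain ⟨R, hR⟩ := hQ0
  have hfinj : Function.Injective f := f.injective
  -- the multiples of `R` are nonzero
  have hne : ∀ k : ℕ, ¬ p ∣ k → k • R ≠ 0 := fun k hk =>
    (redTo_nsmul_int hpk hQ hR hk).ne_zero
  -- the points over `k₀`
  have key : ∀ i : Fin (p - 1), ∃ (α β : k₀), W₀.toAffine.Nonsingular α β ∧
      ∃ h' : (Ek A W).Nonsingular (f α) (f β), ((i : ℕ) + 1) • R = Point.some _ _ h' := by
    intro i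
    have hi : ¬ p ∣ (i : ℕ) + 1 := by
      intro hd
      have := Nat.le_of_dvd (Nat.succ_pos _) hd
      have := i.2
      omega
    obtain ⟨a, b, h, h', e, e'⟩ := redTo_nsmul_int hpk hQ hR hi
    obtain ⟨⟨α, hα⟩, ⟨β, hβ⟩⟩ := hrat _ a b h e
    have hns : (Ek A W).Nonsingular (f α) (f β) := by rw [hα, hβ]; exact h'
    refine ⟨α, β, ?_, hns, ?_⟩
    · have h1 : (W₀.map f).toAffine.Nonsingular (f α) (f β) := by
        rw [hW₀]; exact hns
      exact (Affine.map_nonsingular (W := W₀.toAffine) hfinj α β).1 h1
    · rw [e']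
      exact some_eq_some _ _ hα.symm hβ.symm
  choose α β hαβ hk₀ hsm using key
  have hinj : Function.Injective (fun i : Fin (p - 1) => (α i, β i)) := by
    intro i j hij
    simp only [Prod.mk.injEq] at hij
    have e : ((i : ℕ) + 1) • R = ((j : ℕ) + 1) • R := by
      rw [hsm i, hsm j]
      exact some_eq_some _ _ (by rw [hij.1]) (by rw [hij.2])
    by_contra hne'
    have hij' : (i : ℕ) ≠ j := fun h => hne' (Fin.ext h)
    have hi := i.2
    have hj := j.2
    rcases Nat.lt_or_gt_of_ne hij' with hlt | hlt
    · refine hne ((j : ℕ) - i) ?_ ?_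
      · intro hd
        have := Nat.le_of_dvd (by omega) hd
        omega
      · have h1 : ((j : ℕ) + 1) • R = ((j : ℕ) - i) • R + ((i : ℕ) + 1) • R := by
          rw [← add_nsmul]
          congr 1
          omega
        rw [← e] at h1
        exact (add_eq_right.1 h1.symm)
    · refine hne ((i : ℕ) - j) ?_ ?_
      · intro hd
        have := Nat.le_of_dvd (by omega) hd
        omega
      · have h1 : ((i : ℕ) + 1) • R = ((i : ℕ) - j) • R + ((j : ℕ) + 1) • R := by
          rw [← add_nsmul]
          congr 1
          omega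
        rw [e] at h1
        exact (add_eq_right.1 h1.symm)
  have hcard := card_le_of_nodal (V := W₀) hΔ hc₄ (fun i : Fin (p - 1) => (α i, β i)) hinj
    (fun i => hαβ i)
  rw [Nat.card_eq_fintype_card, Fintype.card_fin] at hcard
  omega

end Fermat.Agent.Lib.RedE0
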